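/-
S48, node F (bounded image).  Basic definitions.  Owner: helper80.
-/
import Fermat.Agent.S48.Nodes

set_option autoImplicit false

namespace Fermat.Agent.S48.BI

open scoped LinearAlgebra.Projectivization MatrixGroups
open Matrix

variable {κ : Type*} [Field κ] {G : Type*} [Group G]

/-- the matrix of `ρ g`. -/
def mat (ρ : G →* GL (Fin 2) κ) (g : G) : Matrix (Fin 2) (Fin 2) κ :=
  ((ρ g : GL (Fin 2) κ) : Matrix (Fin 2) (Fin 2) κ)

theorem mat_def (ρ : G →* GL (Fin 2) κ) (g : G) :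
    mat ρ g = ((ρ g : GL (Fin 2) κ) : Matrix (Fin 2) (Fin 2) κ) := rfl

@[simp] theorem mat_one (ρ : G →* GL (Fin 2) κ) : mat ρ 1 = 1 := by
  rw [mat, map_one, Units.val_one]

theorem mat_mul (ρ : G →* GL (Fin 2) κ) (g h : G) : mat ρ (g * h) = mat ρ g * mat ρ h := by
  rw [mat, map_mul, Units.val_mul]; rfl

theorem mat_pow (ρ : G →* GL (Fin 2) κ) (g : G) (n : ℕ) : mat ρ (g ^ n) = mat ρ g ^ n := by
  rw [mat, map_pow, Units.val_pow_eq_pow_val]; rfl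

@[simp] theorem mat_mul_mat_inv (ρ : G →* GL (Fin 2) κ) (g : G) : mat ρ g * mat ρ g⁻¹ = 1 := by
  rw [← mat_mul, mul_inv_cancel, mat_one]

@[simp] theorem mat_inv_mul_mat (ρ : G →* GL (Fin 2) κ) (g : G) : mat ρ g⁻¹ * mat ρ g = 1 := by
  rw [← mat_mul, inv_mul_cancel, mat_one]

theorem mat_injective {ρ : G →* GL (Fin 2) κ} (hρ : Function.Injective ρ) :
    Function.Injective (mat ρ) := fun _ _ h => hρ (Units.ext h)

theorem mat_pow_card (ρ : G →* GL (Fin 2) κ) [Finite G] (g : G) : mat ρ g ^ Nat.card G = 1 := by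
  rw [← mat_pow, pow_card_eq_one', mat_one]

theorem det_mat_ne_zero (ρ : G →* GL (Fin 2) κ) (g : G) : (mat ρ g).det ≠ 0 := by
  intro h
  have h1 : (mat ρ g * mat ρ g⁻¹).det = 1 := by rw [mat_mul_mat_inv, det_one]
  rw [det_mul, h, zero_mul] at h1
  exact zero_ne_one h1

theorem charpoly_mat_conj (ρ : G →* GL (Fin 2) κ) (g h : G) :
    (mat ρ (g * h * g⁻¹)).charpoly = (mat ρ h).charpoly := by
  rw [mat_mul, Matrix.charpoly_mul_comm, ← mat_mul, inv_mul_cancel_left]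

/-- the subgroup of the elements acting by a scalar. -/
def scal (ρ : G →* GL (Fin 2) κ) : Subgroup G := (Subgroup.center (GL (Fin 2) κ)).comap ρ

instance (ρ : G →* GL (Fin 2) κ) : (scal ρ).Normal :=
  Subgroup.Normal.comap inferInstance ρ

theorem mem_scal_iff (ρ : G →* GL (Fin 2) κ) (g : G) :
    g ∈ scal ρ ↔ ∃ c : κ, mat ρ g = c • (1 : Matrix (Fin 2) (Fin 2) κ) := by
  rw [scal, Subgroup.mem_comap, Matrix.GeneralLinearGroup.mem_center_iff_val_mem_range_scalar]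
  constructor
  · rintro ⟨c, hc⟩
    exact ⟨c, by rw [mat, ← hc, Matrix.smul_one_eq_diagonal]; rfl⟩
  · rintro ⟨c, hc⟩
    exact ⟨c, by rw [mat] at hc; rw [hc, Matrix.smul_one_eq_diagonal]; rfl⟩

/-- the projective line, with the action of `G` through `ρ`. -/
def PL (_ρ : G →* GL (Fin 2) κ) : Type _ := ℙ κ (Fin 2 → κ)

instance (ρ : G →* GL (Fin 2) κ) : MulAction G (PL ρ) :=
  MulAction.compHom (ℙ κ (Fin 2 → κ)) ρ

/-- the point of the projective line defined by a nonzero vector. -/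
def PL.mk (ρ : G →* GL (Fin 2) κ) (v : Fin 2 → κ) (hv : v ≠ 0) : PL ρ :=
  Projectivization.mk κ v hv

theorem PL.exists_mk (ρ : G →* GL (Fin 2) κ) (x : PL ρ) :
    ∃ (v : Fin 2 → κ) (hv : v ≠ 0), x = PL.mk ρ v hv :=
  ⟨Projectivization.rep x, Projectivization.rep_nonzero x, (Projectivization.mk_rep x).symm⟩

theorem PL.mk_eq_mk_iff (ρ : G →* GL (Fin 2) κ) (v w : Fin 2 → κ) (hv : v ≠ 0) (hw : w ≠ 0) :
    PL.mk ρ v hv = PL.mk ρ w hw ↔ ∃ c : κ, v = c • w := by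
  refine (Projectivization.mk_eq_mk_iff' κ v w hv hw).trans ?_
  exact ⟨fun ⟨a, ha⟩ => ⟨a, ha.symm⟩, fun ⟨a, ha⟩ => ⟨a, ha.symm⟩⟩

theorem PL.smul_mk_eq_iff (ρ : G →* GL (Fin 2) κ) (g : G) (v : Fin 2 → κ) (hv : v ≠ 0) :
    g • PL.mk ρ v hv = PL.mk ρ v hv ↔ ∃ c : κ, mat ρ g *ᵥ v = c • v := by
  change (ρ g) • Projectivization.mk κ v hv = Projectivization.mk κ v hv ↔ _
  rw [Projectivization.smul_mk, Projectivization.mk_eq_mk_iff']
  exact ⟨fun ⟨a, ha⟩ => ⟨a, ha.symm⟩, fun ⟨a, ha⟩ => ⟨a, ha.symm⟩⟩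

end Fermat.Agent.S48.BI
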