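/-
S48, node F (bounded image), file Mat2 (helper190): elementary lemmas on `2 × 2` matrices over a
field.
-/
import Mathlib

set_option autoImplicit false

namespace Fermat.Agent.S48.BI

open Matrix Polynomial

section Mat2

variable {κ : Type*} [Field κ]

theorem eq_zero_of_mulVec_eq_zero {N : Matrix (Fin 2) (Fin 2) κ} {v w : Fin 2 → κ}
    (hli : LinearIndependent κ ![v, w]) (hv : N *ᵥ v = 0) (hw : N *ᵥ w = 0) : N = 0 := by
  let b := basisOfLinearIndependentOfCardEqFinrank hli (by simp)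
  have h : Matrix.toLin' N = Matrix.toLin' (0 : Matrix (Fin 2) (Fin 2) κ) := by
    apply b.ext
    intro i
    rw [coe_basisOfLinearIndependentOfCardEqFinrank, Matrix.toLin'_apply, Matrix.toLin'_apply,
      Matrix.zero_mulVec]
    fin_cases i
    · exact hv
    · exact hw
  exact Matrix.toLin'.injective h

theorem exists_smul_of_mulVec_eq_zero {N : Matrix (Fin 2) (Fin 2) κ} (hN : N ≠ 0)
    {v y : Fin 2 → κ} (hv0 : v ≠ 0) (hv : N *ᵥ v = 0) (hy : N *ᵥ y = 0) :
    ∃ c : κ, y = c • v := by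
  by_contra hc
  push Not at hc
  exact hN (eq_zero_of_mulVec_eq_zero
    ((LinearIndependent.pair_iff' hv0).mpr fun a h => hc a h.symm) hv hy)

theorem cayley_hamilton (A : Matrix (Fin 2) (Fin 2) κ) :
    A * A - A.trace • A + A.det • (1 : Matrix (Fin 2) (Fin 2) κ) = 0 := by
  ext i j
  fin_cases i <;> fin_cases j <;>
    simp [Matrix.mul_apply, Fin.sum_univ_two, Matrix.det_fin_two, Matrix.trace_fin_two] <;> ring

theorem mul_self_eq_zero_of_isNilpotent {N : Matrix (Fin 2) (Fin 2) κ} (h : IsNilpotent N) :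
    N * N = 0 := by
  have h1 : N.trace = 0 := (Matrix.isNilpotent_trace_of_isNilpotent h).eq_zero
  have h2 : N.det = 0 := by
    obtain ⟨k, hk⟩ := h
    have h3 : N.det ^ k = 0 := by rw [← Matrix.det_pow, hk, Matrix.det_zero]
    exact pow_eq_zero_iff (fun h0 => by simp [h0] at h3) |>.mp h3
  have h3 := cayley_hamilton N
  rwa [h1, h2, zero_smul, zero_smul, sub_zero, add_zero] at h3

theorem det_eq_zero_of_mul_self_eq_zero {N : Matrix (Fin 2) (Fin 2) κ} (h : N * N = 0) :
    N.det = 0 := by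
  have h1 : N.det * N.det = 0 := by rw [← Matrix.det_mul, h, Matrix.det_zero]
  exact mul_self_eq_zero.mp h1

theorem mul_mul_self_of_det_eq_zero (N A : Matrix (Fin 2) (Fin 2) κ) (h : N.det = 0) :
    N * A * N = (A * N).trace • N := by
  rw [Matrix.det_fin_two] at h
  ext i j
  fin_cases i <;> fin_cases j <;>
    simp only [Matrix.mul_apply, Fin.sum_univ_two, Matrix.trace_fin_two, Matrix.smul_apply,
      smul_eq_mul, Fin.zero_eta, Fin.mk_one, Fin.isValue]
  · linear_combination (-(A 1 1)) * h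
  · linear_combination (A 0 1) * h
  · linear_combination (A 1 0) * h
  · linear_combination (-(A 0 0)) * h

theorem one_add_pow_of_mul_self_eq_zero {N : Matrix (Fin 2) (Fin 2) κ} (h : N * N = 0) (k : ℕ) :
    (1 + N) ^ k = 1 + (k : κ) • N := by
  induction k with
  | zero => simp
  | succ k ih =>
    rw [pow_succ, ih, add_mul, mul_add, mul_add, one_mul, one_mul, mul_one, smul_mul_assoc, h,
      smul_zero, add_zero, Nat.cast_succ, add_smul, one_smul]
    abel

theorem trace_eq_of_charpoly_eq {A B : Matrix (Fin 2) (Fin 2) κ} (h : A.charpoly = B.charpoly) :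
    A.trace = B.trace := by
  have h1 := congrArg (fun p : κ[X] => p.coeff 1) h
  simp only [Matrix.charpoly_fin_two] at h1
  simpa [Polynomial.coeff_X, Polynomial.coeff_C] using h1

theorem det_eq_of_charpoly_eq {A B : Matrix (Fin 2) (Fin 2) κ} (h : A.charpoly = B.charpoly) :
    A.det = B.det := by
  have h1 := congrArg (fun p : κ[X] => p.coeff 0) h
  simp only [Matrix.charpoly_fin_two] at h1
  simpa [Polynomial.coeff_X, Polynomial.coeff_C] using h1

/-- an eigenvalue is a root of the characteristic polynomial. -/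
theorem eigen_quadratic (A : Matrix (Fin 2) (Fin 2) κ) {v : Fin 2 → κ} (hv : v ≠ 0) {c : κ}
    (h : A *ᵥ v = c • v) : c * c - A.trace * c + A.det = 0 := by
  have h0 := congrFun h 0
  have h1 := congrFun h 1
  simp only [Matrix.mulVec, dotProduct, Fin.sum_univ_two, Pi.smul_apply, smul_eq_mul] at h0 h1
  rw [Matrix.trace_fin_two, Matrix.det_fin_two]
  by_contra hD
  apply hv
  ext i
  fin_cases i
  · refine (mul_eq_zero.mp ?_).resolve_left hD
    show _ * v 0 = 0
    linear_combination (A 1 1 - c) * h0 - A 0 1 * h1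
  · refine (mul_eq_zero.mp ?_).resolve_left hD
    show _ * v 1 = 0
    linear_combination (A 0 0 - c) * h1 - A 1 0 * h0

/-- auxiliary: powers of `c + N` with `N ^ 2 = 0`. -/
theorem Mat2.smul_one_add_pow {N : Matrix (Fin 2) (Fin 2) κ} (h : N * N = 0) (c : κ) (k : ℕ) :
    (c • (1 : Matrix (Fin 2) (Fin 2) κ) + N) ^ (k + 1) =
      c ^ (k + 1) • (1 : Matrix (Fin 2) (Fin 2) κ) + (((k + 1 : ℕ) : κ) * c ^ k) • N := by
  induction k with
  | zero => simp
  | succ k ih =>
    rw [pow_succ, ih, add_mul, mul_add, mul_add, smul_mul_smul_comm, one_mul, smul_mul_assoc,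
      one_mul, smul_mul_smul_comm, mul_one, smul_mul_assoc, h, smul_zero, add_zero, add_assoc,
      ← add_smul, ← pow_succ]
    congr 2
    push_cast
    ring

/-- (L1) -/
theorem eq_smul_one_of_mul_self_eq_zero (A : Matrix (Fin 2) (Fin 2) κ) (c : κ)
    (h : (A - c • (1 : Matrix (Fin 2) (Fin 2) κ)) * (A - c • (1 : Matrix (Fin 2) (Fin 2) κ)) = 0)
    (n : ℕ) (hn : (n : κ) ≠ 0) (hA : A ^ n = 1) : A = c • (1 : Matrix (Fin 2) (Fin 2) κ) := by
  obtain ⟨k, rfl⟩ : ∃ k, n = k + 1 := Nat.exists_eq_succ_of_ne_zero (by rintro rfl; simp at hn)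
  set N := A - c • (1 : Matrix (Fin 2) (Fin 2) κ) with hN
  have hAN : A = c • (1 : Matrix (Fin 2) (Fin 2) κ) + N := by rw [hN]; abel
  have h1 := Mat2.smul_one_add_pow h c k
  rw [← hAN, hA] at h1
  -- `(n c^k) N = (1 - c^n) 1`
  have h2 : (((k + 1 : ℕ) : κ) * c ^ k) • N = (1 - c ^ (k + 1)) • (1 : Matrix (Fin 2) (Fin 2) κ) := by
    rw [sub_smul, one_smul, eq_sub_iff_add_eq, add_comm]
    exact h1.symm
  have h3 : ((1 - c ^ (k + 1)) * (1 - c ^ (k + 1))) • (1 : Matrix (Fin 2) (Fin 2) κ) = 0 := by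
    have := congrArg (fun M => M * M) h2
    simp only [smul_mul_smul_comm, h, smul_zero, one_mul] at this
    exact this.symm
  have h4 : (1 - c ^ (k + 1)) * (1 - c ^ (k + 1)) = 0 := by
    have := congrFun (congrFun h3 0) 0
    simpa using this
  have h5 : 1 - c ^ (k + 1) = 0 := mul_self_eq_zero.mp h4
  have hc : c ≠ 0 := by
    rintro rfl
    simp at h5
  rw [h5, zero_smul] at h2
  have h6 : N = 0 := (smul_eq_zero.mp h2).resolve_left (mul_ne_zero hn (pow_ne_zero _ hc))
  rw [hAN, h6, add_zero]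

/-- auxiliary: a nonzero matrix has a nonzero column. -/
theorem Mat2.exists_mulVec_ne_zero {B : Matrix (Fin 2) (Fin 2) κ} (hB : B ≠ 0) :
    ∃ u : Fin 2 → κ, B *ᵥ u ≠ 0 := by
  by_contra hc
  push Not at hc
  apply hB
  ext i j
  have := congrFun (hc (Pi.single j 1)) i
  simpa using this

/-- (L2) -/
theorem exists_eigen [IsAlgClosed κ] (A : Matrix (Fin 2) (Fin 2) κ)
    (hA : ∀ c : κ, A ≠ c • (1 : Matrix (Fin 2) (Fin 2) κ))
    (n : ℕ) (hn : (n : κ) ≠ 0) (hAn : A ^ n = 1) :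
    ∃ (a b : κ) (v w : Fin 2 → κ), a ≠ b ∧ v ≠ 0 ∧ w ≠ 0 ∧ A *ᵥ v = a • v ∧ A *ᵥ w = b • w ∧
      ∀ (c : κ) (y : Fin 2 → κ), y ≠ 0 → A *ᵥ y = c • y →
        (∃ k : κ, y = k • v) ∨ (∃ k : κ, y = k • w) := by
  obtain ⟨a, ha⟩ : ∃ a : κ, a * a - A.trace * a + A.det = 0 := by
    obtain ⟨a, ha⟩ := IsAlgClosed.exists_root A.charpoly (by
      rw [Matrix.charpoly_degree_eq_dim]; simp)
    refine ⟨a, ?_⟩
    rw [Matrix.charpoly_fin_two] at ha
    simp only [IsRoot.def, eval_add, eval_sub, eval_pow, eval_X, eval_mul, eval_C] at ha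
    linear_combination ha
  set b : κ := A.trace - a with hb
  have hCH := cayley_hamilton A
  have hab : (A - a • (1 : Matrix (Fin 2) (Fin 2) κ)) * (A - b • (1 : Matrix (Fin 2) (Fin 2) κ)) = 0 := by
    have : (A - a • (1 : Matrix (Fin 2) (Fin 2) κ)) * (A - b • (1 : Matrix (Fin 2) (Fin 2) κ)) =
        A * A - A.trace • A + A.det • (1 : Matrix (Fin 2) (Fin 2) κ) := by
      have hd : A.det = a * b := by rw [hb]; linear_combination ha
      have ht : A.trace = a + b := by rw [hb]; ring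
      rw [hd, ht, sub_mul, mul_sub, mul_sub, smul_mul_smul_comm, one_mul, mul_smul_comm, mul_one,
        smul_mul_assoc, one_mul, add_smul]
      abel
    rw [this, hCH]
  have hba : (A - b • (1 : Matrix (Fin 2) (Fin 2) κ)) * (A - a • (1 : Matrix (Fin 2) (Fin 2) κ)) = 0 := by
    rw [← hab, sub_mul, mul_sub, mul_sub, sub_mul, mul_sub, mul_sub, smul_mul_smul_comm,
      smul_mul_smul_comm, mul_smul_comm, mul_smul_comm, smul_mul_assoc, smul_mul_assoc, one_mul,
      mul_one, mul_comm a b]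
    abel
  have hne : a ≠ b := by
    intro heq
    rw [← heq] at hab
    exact hA a (eq_smul_one_of_mul_self_eq_zero A a hab n hn hAn)
  have hAa : A - a • (1 : Matrix (Fin 2) (Fin 2) κ) ≠ 0 := fun h => hA a (sub_eq_zero.mp h)
  have hAb : A - b • (1 : Matrix (Fin 2) (Fin 2) κ) ≠ 0 := fun h => hA b (sub_eq_zero.mp h)
  obtain ⟨u, hu⟩ := Mat2.exists_mulVec_ne_zero hAb
  obtain ⟨u', hu'⟩ := Mat2.exists_mulVec_ne_zero hAa
  have key : ∀ (c : κ) (y : Fin 2 → κ),
      (A - c • (1 : Matrix (Fin 2) (Fin 2) κ)) *ᵥ y = 0 ↔ A *ᵥ y = c • y := by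
    intro c y
    rw [Matrix.sub_mulVec, Matrix.smul_mulVec, Matrix.one_mulVec, sub_eq_zero]
  have hv : (A - a • (1 : Matrix (Fin 2) (Fin 2) κ)) *ᵥ
      ((A - b • (1 : Matrix (Fin 2) (Fin 2) κ)) *ᵥ u) = 0 := by
    rw [Matrix.mulVec_mulVec, hab, Matrix.zero_mulVec]
  have hw : (A - b • (1 : Matrix (Fin 2) (Fin 2) κ)) *ᵥ
      ((A - a • (1 : Matrix (Fin 2) (Fin 2) κ)) *ᵥ u') = 0 := by
    rw [Matrix.mulVec_mulVec, hba, Matrix.zero_mulVec]
  refine ⟨a, b, _, _, hne, hu, hu', (key _ _).mp hv, (key _ _).mp hw, ?_⟩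
  intro c y hy hAy
  have hq := eigen_quadratic A hy hAy
  have hq' : (c - a) * (c - b) = 0 := by
    rw [hb]
    linear_combination hq - ha
  rcases mul_eq_zero.mp hq' with h | h
  · left
    rw [sub_eq_zero.mp h] at hAy
    exact exists_smul_of_mulVec_eq_zero hAa hu hv ((key _ _).mpr hAy)
  · right
    rw [sub_eq_zero.mp h] at hAy
    exact exists_smul_of_mulVec_eq_zero hAb hu' hw ((key _ _).mpr hAy)

end Mat2

end Fermat.Agent.S48.BI
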