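/-
S48, node F (bounded image), file Action (helper190): the action on the projective line.
-/
import Fermat.Agent.S48.BoundedImage.Defs
import Fermat.Agent.S48.BoundedImage.Mat2

set_option autoImplicit false

namespace Fermat.Agent.S48.BI

open scoped LinearAlgebra.Projectivization MatrixGroups
open Matrix Polynomial

variable {κ : Type*} [Field κ] {G : Type*} [Group G] [Finite G]

omit [Finite G] in
theorem smul_eq_of_mem_scal (ρ : G →* GL (Fin 2) κ) {g : G} (hg : g ∈ scal ρ) (x : PL ρ) :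
    g • x = x := by
  obtain ⟨v, hv, rfl⟩ := PL.exists_mk ρ x
  obtain ⟨c, hc⟩ := (mem_scal_iff ρ g).mp hg
  rw [PL.smul_mk_eq_iff]
  exact ⟨c, by rw [hc, Matrix.smul_mulVec, Matrix.one_mulVec]⟩

theorem ncard_fixedBy [IsAlgClosed κ] (ρ : G →* GL (Fin 2) κ) (hcard : (Nat.card G : κ) ≠ 0)
    {g : G} (hg : g ∉ scal ρ) : (MulAction.fixedBy (PL ρ) g).ncard = 2 := by
  obtain ⟨a, b, v, w, hab, hv, hw, hAv, hAw, hall⟩ := exists_eigen (mat ρ g)
    (fun c hc => hg ((mem_scal_iff ρ g).mpr ⟨c, hc⟩)) (Nat.card G) hcard (mat_pow_card ρ g)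
  have hset : MulAction.fixedBy (PL ρ) g = {PL.mk ρ v hv, PL.mk ρ w hw} := by
    ext x
    rw [MulAction.mem_fixedBy, Set.mem_insert_iff, Set.mem_singleton_iff]
    constructor
    · intro hx
      obtain ⟨y, hy, rfl⟩ := PL.exists_mk ρ x
      obtain ⟨c, hc⟩ := (PL.smul_mk_eq_iff ρ g y hy).mp hx
      rcases hall c y hy hc with h | h
      · exact Or.inl ((PL.mk_eq_mk_iff ρ y v hy hv).mpr h)
      · exact Or.inr ((PL.mk_eq_mk_iff ρ y w hy hw).mpr h)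
    · rintro (rfl | rfl)
      · exact (PL.smul_mk_eq_iff ρ g v hv).mpr ⟨a, hAv⟩
      · exact (PL.smul_mk_eq_iff ρ g w hw).mpr ⟨b, hAw⟩
  rw [hset]
  apply Set.ncard_pair
  intro h
  obtain ⟨k, hk⟩ := (PL.mk_eq_mk_iff ρ v w hv hw).mp h
  have h1 : (a - b) • v = 0 := by
    rw [sub_smul, ← hAv, sub_eq_zero]
    conv_lhs => rw [hk]
    rw [Matrix.mulVec_smul, hAw, hk, smul_comm]
  exact hv ((smul_eq_zero.mp h1).resolve_left (sub_ne_zero.mpr hab))

/-- two elements with the same characteristic polynomial and the same eigenvalue on `v` agree. -/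
theorem Action.eq_of_eigen_eq (ρ : G →* GL (Fin 2) κ) (hρ : Function.Injective ρ)
    (hcard : (Nat.card G : κ) ≠ 0) {v : Fin 2 → κ} (hv : v ≠ 0) {g g' : G} {c : κ}
    (hg : mat ρ g *ᵥ v = c • v) (hg' : mat ρ g' *ᵥ v = c • v)
    (hP : (mat ρ g).charpoly = (mat ρ g').charpoly) : g = g' := by
  set Y := mat ρ (g⁻¹ * g') with hY
  have hYv : Y *ᵥ v = (1 : κ) • v := by
    rw [hY, mat_mul, ← Matrix.mulVec_mulVec, hg', ← hg, Matrix.mulVec_mulVec, mat_inv_mul_mat,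
      Matrix.one_mulVec, one_smul]
  have hdet : Y.det = 1 := by
    have h1 : (mat ρ g⁻¹).det * (mat ρ g).det = 1 := by
      rw [← Matrix.det_mul, mat_inv_mul_mat, Matrix.det_one]
    rw [hY, mat_mul, Matrix.det_mul, ← det_eq_of_charpoly_eq hP, h1]
  have htr : Y.trace = 2 := by
    have := eigen_quadratic Y hv hYv
    rw [hdet] at this
    linear_combination -this
  have hCH := cayley_hamilton Y
  rw [hdet, htr] at hCH
  have hsq : (Y - (1 : κ) • (1 : Matrix (Fin 2) (Fin 2) κ)) *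
      (Y - (1 : κ) • (1 : Matrix (Fin 2) (Fin 2) κ)) = 0 := by
    rw [← hCH, one_smul, sub_mul, mul_sub, mul_sub, one_mul, mul_one, mul_one, two_smul]
    abel
  have hY1 : Y = (1 : κ) • (1 : Matrix (Fin 2) (Fin 2) κ) :=
    eq_smul_one_of_mul_self_eq_zero Y 1 hsq (Nat.card G) hcard (mat_pow_card ρ _)
  rw [one_smul, hY, ← mat_one ρ] at hY1
  have := mat_injective hρ hY1
  exact (inv_mul_eq_one.mp this)

theorem ncard_stabilizer_charpoly_le (ρ : G →* GL (Fin 2) κ) (hρ : Function.Injective ρ)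
    (hcard : (Nat.card G : κ) ≠ 0) (x : PL ρ) (P : κ[X]) :
    {g : G | g ∈ MulAction.stabilizer G x ∧ (mat ρ g).charpoly = P}.ncard ≤ 2 := by
  obtain ⟨v, hv, rfl⟩ := PL.exists_mk ρ x
  by_contra hlt
  rw [not_le, Set.two_lt_ncard_iff] at hlt
  obtain ⟨g₁, g₂, g₃, ⟨hs₁, hP₁⟩, ⟨hs₂, hP₂⟩, ⟨hs₃, hP₃⟩, h12, h13, h23⟩ := hlt
  obtain ⟨c₁, hc₁⟩ := (PL.smul_mk_eq_iff ρ g₁ v hv).mp hs₁
  obtain ⟨c₂, hc₂⟩ := (PL.smul_mk_eq_iff ρ g₂ v hv).mp hs₂
  obtain ⟨c₃, hc₃⟩ := (PL.smul_mk_eq_iff ρ g₃ v hv).mp hs₃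
  have hc12 : c₁ ≠ c₂ := by
    rintro rfl
    exact h12 (Action.eq_of_eigen_eq ρ hρ hcard hv hc₁ hc₂ (hP₁.trans hP₂.symm))
  have hc13 : c₁ ≠ c₃ := by
    rintro rfl
    exact h13 (Action.eq_of_eigen_eq ρ hρ hcard hv hc₁ hc₃ (hP₁.trans hP₃.symm))
  have hc23 : c₂ ≠ c₃ := by
    rintro rfl
    exact h23 (Action.eq_of_eigen_eq ρ hρ hcard hv hc₂ hc₃ (hP₂.trans hP₃.symm))
  have q₁ := eigen_quadratic _ hv hc₁
  have q₂ := eigen_quadratic _ hv hc₂
  have q₃ := eigen_quadratic _ hv hc₃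
  rw [trace_eq_of_charpoly_eq (hP₂.trans hP₁.symm), det_eq_of_charpoly_eq (hP₂.trans hP₁.symm)] at q₂
  rw [trace_eq_of_charpoly_eq (hP₃.trans hP₁.symm), det_eq_of_charpoly_eq (hP₃.trans hP₁.symm)] at q₃
  have e12 : c₁ + c₂ - (mat ρ g₁).trace = 0 := by
    refine (mul_eq_zero.mp ?_).resolve_left (sub_ne_zero.mpr hc12)
    linear_combination q₁ - q₂
  have e13 : c₁ + c₃ - (mat ρ g₁).trace = 0 := by
    refine (mul_eq_zero.mp ?_).resolve_left (sub_ne_zero.mpr hc13)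
    linear_combination q₁ - q₃
  exact hc23 (by linear_combination e12 - e13)

end Fermat.Agent.S48.BI
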