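/-
S48, node F (bounded image), file F1: a prime `ℓ = char κ` dividing `|G|` is at most `4 M`.
Owner: helper163.
-/
import Fermat.Agent.S48.BoundedImage.Defs
import Fermat.Agent.S48.BoundedImage.Mat2

set_option autoImplicit false
set_option linter.style.haveILetI false

namespace Fermat.Agent.S48.BI

open scoped LinearAlgebra.Projectivization MatrixGroups
open Matrix Polynomial

variable {κ : Type*} [Field κ] {G : Type*} [Group G]

namespace F1

/-- the stabiliser of the line `κ v`. -/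
def lineStab (ρ : G →* GL (Fin 2) κ) (v : Fin 2 → κ) (hv : v ≠ 0) : Subgroup G where
  carrier := {g | ∃ c : κ, mat ρ g *ᵥ v = c • v}
  one_mem' := ⟨1, by simp⟩
  mul_mem' := by
    rintro g h ⟨c, hc⟩ ⟨d, hd⟩
    refine ⟨d * c, ?_⟩
    rw [mat_mul, ← Matrix.mulVec_mulVec, hd, Matrix.mulVec_smul, hc, smul_smul]
  inv_mem' := by
    rintro g ⟨c, hc⟩
    have h1 : mat ρ g⁻¹ *ᵥ (mat ρ g *ᵥ v) = v := by
      rw [Matrix.mulVec_mulVec, mat_inv_mul_mat, Matrix.one_mulVec]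
    rw [hc, Matrix.mulVec_smul] at h1
    have hc0 : c ≠ 0 := by
      rintro rfl
      rw [zero_smul] at h1
      exact hv h1.symm
    refine ⟨c⁻¹, ?_⟩
    conv_rhs => rw [← h1]
    rw [smul_smul, inv_mul_cancel₀ hc0, one_smul]

theorem mem_lineStab (ρ : G →* GL (Fin 2) κ) (v : Fin 2 → κ) (hv : v ≠ 0) (g : G) :
    g ∈ lineStab ρ v hv ↔ ∃ c : κ, mat ρ g *ᵥ v = c • v := Iff.rfl

theorem exists_mulVec_ne_zero {N : Matrix (Fin 2) (Fin 2) κ} (hN : N ≠ 0) :
    ∃ w : Fin 2 → κ, N *ᵥ w ≠ 0 := by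
  by_contra hcon
  push Not at hcon
  apply hN
  apply Matrix.ext_of_mulVec_single
  intro i
  rw [hcon, Matrix.zero_mulVec]

/-- the unipotent element: `N = mat ρ u - 1` has square zero. -/
theorem sq_zero (ℓ : ℕ) [CharP κ ℓ] (hℓ : ℓ.Prime) (ρ : G →* GL (Fin 2) κ) (u : G)
    (hu : orderOf u = ℓ) : (mat ρ u - 1) * (mat ρ u - 1) = 0 := by
  haveI : Fact ℓ.Prime := ⟨hℓ⟩
  apply mul_self_eq_zero_of_isNilpotent
  refine ⟨ℓ, ?_⟩
  rw [sub_pow_char_of_commute ℓ (Commute.one_right _), one_pow, ← mat_pow, ← hu, pow_orderOf_eq_one,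
    mat_one, sub_self]

section data

variable (ρ : G →* GL (Fin 2) κ) (u : G) (v w : Fin 2 → κ)

/-- for `g` outside the stabiliser of the line `κ v = im N` the trace of `mat g * N` is nonzero -/
theorem trace_ne_zero {N : Matrix (Fin 2) (Fin 2) κ} (hN : N ≠ 0) (hNN : N * N = 0)
    (hv : v = N *ᵥ w) (hv0 : v ≠ 0) {g : G} (hg : g ∉ lineStab ρ v hv0) :
    (mat ρ g * N).trace ≠ 0 := by
  intro htr
  apply hg
  have h1 : N * mat ρ g * N = 0 := by
    rw [mul_mul_self_of_det_eq_zero N (mat ρ g) (det_eq_zero_of_mul_self_eq_zero hNN), htr,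
      zero_smul]
  have hNv : N *ᵥ v = 0 := by
    rw [hv, Matrix.mulVec_mulVec, hNN, Matrix.zero_mulVec]
  have h2 : N *ᵥ (mat ρ g *ᵥ v) = 0 := by
    rw [hv, Matrix.mulVec_mulVec, Matrix.mulVec_mulVec, h1, Matrix.zero_mulVec]
  exact exists_smul_of_mulVec_eq_zero hN hv0 hNv h2

/-- two elements outside the line stabiliser, in the same coset of `⟨u⟩`, with the same
characteristic polynomial, are equal. -/
theorem eq_of_coset [Finite G] (ℓ : ℕ) [CharP κ ℓ] (hu : orderOf u = ℓ)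
    (hNN : (mat ρ u - 1) * (mat ρ u - 1) = 0) {g g' : G}
    (htr : (mat ρ g * (mat ρ u - 1)).trace ≠ 0)
    (hchar : (mat ρ g).charpoly = (mat ρ g').charpoly)
    (hcos : g⁻¹ * g' ∈ Subgroup.zpowers u) : g = g' := by
  rw [← mem_powers_iff_mem_zpowers] at hcos
  obtain ⟨k, hk⟩ := hcos
  have hk' : u ^ k = g⁻¹ * g' := hk
  have hg' : g' = g * u ^ k := by rw [hk', mul_inv_cancel_left]
  have hU : mat ρ u = 1 + (mat ρ u - 1) := by abel
  have h1 : mat ρ g' = mat ρ g + (k : κ) • (mat ρ g * (mat ρ u - 1)) := by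
    rw [hg', mat_mul, mat_pow]
    conv_lhs => rw [hU]
    rw [one_add_pow_of_mul_self_eq_zero hNN, mul_add, mul_one, Matrix.mul_smul]
  have h2 := trace_eq_of_charpoly_eq hchar
  rw [h1, Matrix.trace_add, Matrix.trace_smul, smul_eq_mul] at h2
  have h3 : (k : κ) * (mat ρ g * (mat ρ u - 1)).trace = 0 := by
    linear_combination -h2
  have h4 : (k : κ) = 0 := (mul_eq_zero.mp h3).resolve_right htr
  rw [CharP.cast_eq_zero_iff κ ℓ, ← hu, orderOf_dvd_iff_pow_eq_one] at h4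
  rw [hg', h4, mul_one]

end data

/-- the line stabiliser is a proper subgroup, by semisimplicity. -/
theorem lineStab_ne_top (ρ : G →* GL (Fin 2) κ) (hss : IsSS ρ) (u : G)
    (hN : mat ρ u - 1 ≠ 0) (hNN : (mat ρ u - 1) * (mat ρ u - 1) = 0) (v : Fin 2 → κ)
    (hv0 : v ≠ 0) (hNv : (mat ρ u - 1) *ᵥ v = 0) : lineStab ρ v hv0 ≠ ⊤ := by
  intro htop
  obtain ⟨w', hli, hw'⟩ := hss v hv0 (fun g => by
    have : g ∈ lineStab ρ v hv0 := htop ▸ Subgroup.mem_top g
    exact this)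
  obtain ⟨c, hc⟩ := hw' u
  have hc' : mat ρ u *ᵥ w' = c • w' := hc
  have hw0 : w' ≠ 0 := by
    have := hli.ne_zero 1
    simpa using this
  have h1 : (mat ρ u - 1) *ᵥ w' = (c - 1) • w' := by
    rw [Matrix.sub_mulVec, hc', Matrix.one_mulVec, sub_smul, one_smul]
  have h2 : (mat ρ u - 1) *ᵥ ((mat ρ u - 1) *ᵥ w') = 0 := by
    rw [Matrix.mulVec_mulVec, hNN, Matrix.zero_mulVec]
  rw [h1, Matrix.mulVec_smul, h1, smul_smul] at h2
  have h3 : (c - 1) * (c - 1) = 0 := (smul_eq_zero.mp h2).resolve_right hw0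
  have h4 : c - 1 = 0 := mul_self_eq_zero.mp h3
  rw [h4, zero_smul] at h1
  exact hN (eq_zero_of_mulVec_eq_zero hli hNv h1)

theorem two_mul_card_le [Finite G] (S : Subgroup G) (hS : S ≠ ⊤) :
    2 * Nat.card S ≤ Nat.card G := by
  have h1 := Subgroup.card_mul_index S
  have h2 : S.index ≠ 1 := fun h => hS (Subgroup.index_eq_one.mp h)
  have h3 : S.index ≠ 0 := Subgroup.index_ne_zero_of_finite
  have h4 : 2 ≤ S.index := by omega
  calc 2 * Nat.card S = Nat.card S * 2 := mul_comm _ _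
    _ ≤ Nat.card S * S.index := Nat.mul_le_mul_left _ h4
    _ = Nat.card G := h1

end F1

variable [Finite G]

open F1 in
theorem prime_le_of_dvd_card (ℓ : ℕ) [CharP κ ℓ] (hℓ : ℓ.Prime)
    (ρ : G →* GL (Fin 2) κ) (hρ : Function.Injective ρ) (hss : IsSS ρ)
    (M : ℕ) (PP : Finset κ[X]) (hPP : PP.card ≤ M)
    (hH : 3 * Nat.card G ≤ 4 * Nat.card {g : G // (mat ρ g).charpoly ∈ PP})
    (hdvd : ℓ ∣ Nat.card G) : ℓ ≤ 4 * M := by
  classical
  haveI : Fact ℓ.Prime := ⟨hℓ⟩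
  haveI : Fintype G := Fintype.ofFinite G
  obtain ⟨u, hu⟩ := exists_prime_orderOf_dvd_card' ℓ hdvd
  have hNN := sq_zero ℓ hℓ ρ u hu
  have hN : mat ρ u - 1 ≠ 0 := by
    intro h
    have h1 : mat ρ u = mat ρ 1 := by rw [mat_one]; exact sub_eq_zero.mp h
    have h2 : u = 1 := mat_injective hρ h1
    rw [h2, orderOf_one] at hu
    exact hℓ.one_lt.ne hu
  obtain ⟨w, hw⟩ := exists_mulVec_ne_zero hN
  set v : Fin 2 → κ := (mat ρ u - 1) *ᵥ w with hv
  have hNv : (mat ρ u - 1) *ᵥ v = 0 := by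
    rw [hv, Matrix.mulVec_mulVec, hNN, Matrix.zero_mulVec]
  set S : Subgroup G := lineStab ρ v hw with hS
  have hS2 : 2 * Nat.card S ≤ Nat.card G :=
    two_mul_card_le S (lineStab_ne_top ρ hss u hN hNN v hw hNv)
  -- the finite sets
  set Hf : Finset G := Finset.univ.filter (fun g => (mat ρ g).charpoly ∈ PP) with hHf
  set Sf : Finset G := Finset.univ.filter (fun g => g ∈ S) with hSf
  set Tf : κ[X] → Finset G := fun P =>
    Finset.univ.filter (fun g => g ∉ S ∧ (mat ρ g).charpoly = P) with hTf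
  have hHcard : Nat.card {g : G // (mat ρ g).charpoly ∈ PP} = Hf.card := by
    rw [Nat.card_eq_fintype_card, Fintype.card_subtype]
  have hScard : Nat.card S = Sf.card := by
    rw [Nat.card_eq_fintype_card, hSf, ← Fintype.card_subtype]
  have hT : ∀ P, ℓ * (Tf P).card ≤ Nat.card G := by
    intro P
    have h1 : (Tf P).card ≤ Nat.card (G ⧸ Subgroup.zpowers u) := by
      rw [Nat.card_eq_fintype_card, ← Finset.card_univ]
      refine Finset.card_le_card_of_injOn (fun g => (g : G ⧸ Subgroup.zpowers u))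
        (fun _ _ => Finset.mem_coe.mpr (Finset.mem_univ _)) ?_
      intro g hg g' hg' hgg'
      simp only [hTf, Finset.coe_filter, Finset.mem_univ, true_and, Set.mem_ofPred_eq] at hg hg'
      exact eq_of_coset ρ u ℓ hu hNN (trace_ne_zero ρ v w hN hNN hv hw hg.1)
        (hg.2.trans hg'.2.symm) (QuotientGroup.eq.mp hgg')
    rw [Subgroup.card_eq_card_quotient_mul_card_subgroup (Subgroup.zpowers u), Nat.card_zpowers,
      hu, mul_comm]
    exact Nat.mul_le_mul_right _ h1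
  have hsub : Hf ⊆ Sf ∪ PP.biUnion Tf := by
    intro g hg
    simp only [hHf, Finset.mem_filter, Finset.mem_univ, true_and] at hg
    by_cases hgS : g ∈ S
    · exact Finset.mem_union_left _ (by simp [hSf, hgS])
    · refine Finset.mem_union_right _ (Finset.mem_biUnion.mpr ⟨_, hg, ?_⟩)
      simp [hTf, hgS]
  have hcard : Hf.card ≤ Sf.card + ∑ P ∈ PP, (Tf P).card :=
    (Finset.card_le_card hsub).trans
      ((Finset.card_union_le _ _).trans (Nat.add_le_add_left Finset.card_biUnion_le _))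
  have hsumT : ℓ * ∑ P ∈ PP, (Tf P).card ≤ M * Nat.card G := by
    rw [Finset.mul_sum]
    calc ∑ P ∈ PP, ℓ * (Tf P).card ≤ ∑ _P ∈ PP, Nat.card G := Finset.sum_le_sum fun P _ => hT P
      _ = PP.card * Nat.card G := by rw [Finset.sum_const, smul_eq_mul]
      _ ≤ M * Nat.card G := Nat.mul_le_mul_right _ hPP
  have hn : 0 < Nat.card G := Nat.card_pos
  rw [hHcard] at hH
  rw [hScard] at hS2
  have key : ℓ * Nat.card G ≤ 4 * M * Nat.card G := by
    have a1 : ℓ * Hf.card ≤ ℓ * Sf.card + M * Nat.card G :=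
      calc ℓ * Hf.card ≤ ℓ * (Sf.card + ∑ P ∈ PP, (Tf P).card) := Nat.mul_le_mul_left _ hcard
        _ = ℓ * Sf.card + ℓ * ∑ P ∈ PP, (Tf P).card := mul_add _ _ _
        _ ≤ _ := Nat.add_le_add_left hsumT _
    have a2 : ℓ * (3 * Nat.card G) ≤ ℓ * (4 * Hf.card) := Nat.mul_le_mul_left _ hH
    have a3 : ℓ * (2 * Sf.card) ≤ ℓ * Nat.card G := Nat.mul_le_mul_left _ hS2
    nlinarith
  exact Nat.le_of_mul_le_mul_right key hn

end Fermat.Agent.S48.BI
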