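/-
S48 / BoundedImage, node K1 (task 977, proof by helper207).
Klein's counting bound: a finite group acting on a finite set such that every element outside a
subgroup `Z` (acting trivially) has exactly two fixed points, with point stabilisers of order
between `2 |Z|` and `E`, has order at most `2 |Z| E ^ 3`.
-/
import Mathlib

set_option autoImplicit false

namespace Fermat.Agent.S48.BI

namespace KleinFinite

/-- The numerical core of the argument. -/
theorem numeric {ι : Type*} (T : Finset ι) (s q : ι → ℕ) (n z E : ℕ) (hE : 1 ≤ E) (hz : 1 ≤ z)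
    (hsq : ∀ i ∈ T, s i * q i = n) (hlow : ∀ i ∈ T, 2 * z ≤ s i) (hup : ∀ i ∈ T, s i ≤ E)
    (hstar : z * ∑ i ∈ T, q i + 2 * n = T.card * n + 2 * z) : n ≤ 2 * z * E ^ 3 := by
  -- (1) at most three orbits
  have h1 : 2 * z * ∑ i ∈ T, q i ≤ T.card * n := by
    have h0 : ∑ _i ∈ T, n = T.card * n := by rw [Finset.sum_const, smul_eq_mul]
    rw [Finset.mul_sum, ← h0]
    refine Finset.sum_le_sum fun i hi => ?_
    rw [← hsq i hi]
    exact Nat.mul_le_mul_right _ (hlow i hi)
  have hr : T.card ≤ 3 := by
    by_contra hcon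
    have h4 : 4 ≤ T.card := by omega
    have h5 : 4 * n ≤ T.card * n := Nat.mul_le_mul_right _ h4
    have h6 : 2 * z * ∑ i ∈ T, q i = 2 * (z * ∑ i ∈ T, q i) := by ring
    omega
  -- (2) divisibility
  set P : ℕ := ∏ i ∈ T, s i with hP
  have hPpos : 0 < P := Finset.prod_pos fun i hi => by have := hlow i hi; omega
  have hdiv : ∀ i ∈ T, n ∣ q i * P := by
    intro i hi
    obtain ⟨c, hc⟩ := Finset.dvd_prod_of_mem s hi
    rw [← hP] at hc
    rw [hc, ← hsq i hi]
    exact ⟨c, by ring⟩
  have hdiv2 : n ∣ (z * ∑ i ∈ T, q i) * P := by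
    rw [mul_assoc, Finset.sum_mul]
    exact Dvd.dvd.mul_left (Finset.dvd_sum hdiv) _
  have hmul : (z * ∑ i ∈ T, q i) * P + n * (2 * P) = n * (T.card * P) + 2 * z * P := by
    have h8 : (z * ∑ i ∈ T, q i + 2 * n) * P = (T.card * n + 2 * z) * P := by rw [hstar]
    linarith [h8]
  have hdiv3 : n ∣ 2 * z * P := by
    have h7 : n ∣ n * (T.card * P) + 2 * z * P := by
      rw [← hmul]
      exact dvd_add hdiv2 (dvd_mul_right _ _)
    exact (Nat.dvd_add_right (dvd_mul_right _ _)).1 h7
  have hle : n ≤ 2 * z * P := Nat.le_of_dvd (by positivity) hdiv3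
  have hPE : P ≤ E ^ 3 :=
    (Finset.prod_le_pow_card T s E hup).trans (Nat.pow_le_pow_right hE hr)
  exact hle.trans (Nat.mul_le_mul_left _ hPE)

end KleinFinite

open MulAction in
/-- K1 -/
theorem klein_bound_finite {G Ω : Type*} [Group G] [Finite G] [MulAction G Ω] [Finite Ω]
    (Z : Subgroup G) (E : ℕ) (hE : 1 ≤ E)
    (hZ : ∀ g ∈ Z, ∀ x : Ω, g • x = x)
    (h2 : ∀ g : G, g ∉ Z → (MulAction.fixedBy Ω g).ncard = 2)
    (hlow : ∀ x : Ω, 2 * Nat.card Z ≤ Nat.card (MulAction.stabilizer G x))
    (hup : ∀ x : Ω, Nat.card (MulAction.stabilizer G x) ≤ E) :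
    Nat.card G ≤ 2 * Nat.card Z * E ^ 3 := by
  classical
  have : Fintype G := Fintype.ofFinite G
  have : Fintype Ω := Fintype.ofFinite Ω
  have : Fintype (Quotient (orbitRel G Ω)) := Fintype.ofFinite _
  have hburn := sum_card_fixedBy_eq_card_orbits_mul_card_group G Ω
  have hclass := card_eq_sum_card_group_div_card_stabilizer G Ω
  -- the left hand side of Burnside
  have hfix : ∀ g : G, Fintype.card (fixedBy Ω g) = if g ∈ Z then Fintype.card Ω else 2 := by
    intro g
    split_ifs with hg
    · have : fixedBy Ω g = Set.univ := by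
        ext x
        simp [mem_fixedBy, hZ g hg x]
      rw [← Nat.card_eq_fintype_card, this, Nat.card_coe_set_eq, Set.ncard_univ,
        Nat.card_eq_fintype_card]
    · rw [← Nat.card_eq_fintype_card, Nat.card_coe_set_eq, h2 g hg]
  have hsum : (∑ g : G, Fintype.card (fixedBy Ω g)) =
      Nat.card Z * Fintype.card Ω + (Finset.univ.filter (fun g : G => g ∉ Z)).card * 2 := by
    rw [Finset.sum_congr rfl (fun g _ => hfix g), Finset.sum_ite, Finset.sum_const,
      Finset.sum_const, smul_eq_mul, smul_eq_mul]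
    congr 2
    rw [Nat.card_eq_fintype_card, Fintype.card_subtype]
  have hsplit : Nat.card Z + (Finset.univ.filter (fun g : G => g ∉ Z)).card = Fintype.card G := by
    have := Finset.card_filter_add_card_filter_not (s := (Finset.univ : Finset G))
      (fun g : G => g ∈ Z)
    rw [Finset.card_univ] at this
    rw [← this]
    congr 1
    rw [Nat.card_eq_fintype_card, Fintype.card_subtype]
  rw [Nat.card_eq_fintype_card (α := G)]
  refine KleinFinite.numeric (Finset.univ : Finset (Quotient (orbitRel G Ω)))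
    (fun ω => Fintype.card (stabilizer G ω.out))
    (fun ω => Fintype.card G / Fintype.card (stabilizer G ω.out))
    (Fintype.card G) (Nat.card Z) E hE Nat.card_pos ?_ ?_ ?_ ?_
  · intro ω _
    refine Nat.mul_div_cancel' ?_
    have := Subgroup.card_subgroup_dvd_card (stabilizer G ω.out)
    rwa [Nat.card_eq_fintype_card, Nat.card_eq_fintype_card] at this
  · intro ω _
    have := hlow ω.out
    rwa [Nat.card_eq_fintype_card (α := stabilizer G ω.out)] at this
  · intro ω _
    have := hup ω.out
    rwa [Nat.card_eq_fintype_card (α := stabilizer G ω.out)] at this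
  · rw [← hclass, Finset.card_univ, ← hburn, hsum]
    omega

end Fermat.Agent.S48.BI
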