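/-
S48, node F (bounded image), task K2 (owner: helper125).
Klein's bound for an action on a possibly infinite set: restrict to the finite set of the points
fixed by some element outside `Z`.
-/
import Fermat.Agent.S48.BoundedImage.KleinFinite

set_option autoImplicit false

namespace Fermat.Agent.S48.BI

namespace Klein

/-- The points fixed by some element outside `Z`. -/
def omega {G : Type*} (X : Type*) [Group G] [MulAction G X] (Z : Subgroup G) [Z.Normal] :
    SubMulAction G X where
  carrier := {x | ∃ g : G, g ∉ Z ∧ g • x = x}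
  smul_mem' := by
    rintro h x ⟨g, hg, hgx⟩
    refine ⟨h * g * h⁻¹, fun hmem => hg ?_, ?_⟩
    · have := (Subgroup.Normal.mem_comm_iff (H := Z) inferInstance).mp hmem
      simpa [mul_assoc] using this
    · simp [mul_smul, hgx]

end Klein

open Klein

theorem klein_bound {G X : Type*} [Group G] [Finite G] [MulAction G X]
    (Z : Subgroup G) [Z.Normal] (E : ℕ) (hE : 1 ≤ E)
    (hZ : ∀ g ∈ Z, ∀ x : X, g • x = x)
    (h2 : ∀ g : G, g ∉ Z → (MulAction.fixedBy X g).ncard = 2)
    (hup : ∀ (x : X) (g : G), g ∉ Z → g • x = x →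
      Nat.card (MulAction.stabilizer G x) ≤ E) :
    Nat.card G ≤ 2 * Nat.card Z * E ^ 3 := by
  have hfin : Finite (omega X Z) := by
    have h1 : ((omega X Z : SubMulAction G X) : Set X) ⊆
        ⋃ g : {g : G // g ∉ Z}, MulAction.fixedBy X (g : G) := by
      rintro x ⟨g, hg, hgx⟩
      exact Set.mem_iUnion.mpr ⟨⟨g, hg⟩, hgx⟩
    have h3 : (⋃ g : {g : G // g ∉ Z}, MulAction.fixedBy X (g : G)).Finite :=
      Set.finite_iUnion fun g => Set.finite_of_ncard_ne_zero (by rw [h2 g.1 g.2]; norm_num)
    exact (h3.subset h1).to_subtype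
  have hstab : ∀ x : omega X Z, MulAction.stabilizer G x = MulAction.stabilizer G (x : X) :=
    fun x => SubMulAction.stabilizer_of_subMul x
  refine klein_bound_finite (Ω := omega X Z) Z E hE (fun g hg x => Subtype.ext (hZ g hg x)) ?_ ?_ ?_
  · intro g hg
    rw [← h2 g hg, ← Set.ncard_image_of_injective _ Subtype.val_injective]
    congr 1
    ext x
    constructor
    · rintro ⟨y, hy, rfl⟩
      exact congrArg Subtype.val hy
    · intro hx
      exact ⟨⟨x, g, hg, hx⟩, Subtype.ext hx, rfl⟩
  · intro x
    rw [hstab x]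
    obtain ⟨g, hg, hgx⟩ := x.2
    have hle : Z ≤ MulAction.stabilizer G (x : X) := fun z hz => hZ z hz x
    have hdvd := Subgroup.card_dvd_of_le hle
    obtain ⟨k, hk⟩ := hdvd
    have hpos : 0 < Nat.card (MulAction.stabilizer G (x : X)) := Nat.card_pos
    have hk1 : k ≠ 1 := by
      rintro rfl
      have := Subgroup.eq_of_le_of_card_ge hle (by rw [hk, mul_one])
      exact hg (this ▸ (show g ∈ MulAction.stabilizer G (x : X) from hgx))
    have hk0 : k ≠ 0 := by
      rintro rfl
      rw [mul_zero] at hk
      omega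
    rw [hk, mul_comm]
    exact Nat.mul_le_mul_left _ (by omega)
  · intro x
    rw [hstab x]
    obtain ⟨g, hg, hgx⟩ := x.2
    exact hup x g hg hgx

end Fermat.Agent.S48.BI
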