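/-
S48, node F (bounded image), task SC (owner: helper125).
The group of scalars is bounded: `3 |Z| ≤ 8 M`.
-/
import Fermat.Agent.S48.BoundedImage.Defs

set_option autoImplicit false

namespace Fermat.Agent.S48.BI

open scoped LinearAlgebra.Projectivization MatrixGroups
open Matrix Polynomial

variable {κ : Type*} [Field κ] {G : Type*} [Group G] [Finite G]

namespace Scal

omit [Finite G] in
theorem sq_eq_sq (ρ : G →* GL (Fin 2) κ) {z z' h h' : G} {c c' : κ}
    (hz : mat ρ z = c • (1 : Matrix (Fin 2) (Fin 2) κ))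
    (hz' : mat ρ z' = c' • (1 : Matrix (Fin 2) (Fin 2) κ)) (heq : z * h = z' * h')
    (hch : (mat ρ h).charpoly = (mat ρ h').charpoly) : c ^ 2 = c' ^ 2 := by
  have hdet : (mat ρ h).det = (mat ρ h').det := by
    rw [Matrix.det_eq_sign_charpoly_coeff, Matrix.det_eq_sign_charpoly_coeff, hch]
  have h1 : (mat ρ (z * h)).det = c ^ 2 * (mat ρ h).det := by
    rw [mat_mul, hz, smul_mul_assoc, one_mul, Matrix.det_smul, Fintype.card_fin]
  have h2 : (mat ρ (z' * h')).det = c' ^ 2 * (mat ρ h').det := by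
    rw [mat_mul, hz', smul_mul_assoc, one_mul, Matrix.det_smul, Fintype.card_fin]
  rw [heq, h2, ← hdet] at h1
  exact (mul_right_cancel₀ (det_mat_ne_zero ρ h) h1).symm

end Scal

theorem card_scal_le (ρ : G →* GL (Fin 2) κ) (hρ : Function.Injective ρ)
    (M : ℕ) (PP : Finset κ[X]) (hPP : PP.card ≤ M)
    (hH : 3 * Nat.card G ≤ 4 * Nat.card {g : G // (mat ρ g).charpoly ∈ PP}) :
    3 * Nat.card (scal ρ) ≤ 8 * M := by
  classical
  have := Fintype.ofFinite G
  have key : Nat.card (scal ρ) * Nat.card {g : G // (mat ρ g).charpoly ∈ PP} ≤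
      2 * (Nat.card G * PP.card) := by
    rw [← Nat.card_prod, Nat.card_eq_fintype_card, Nat.card_eq_fintype_card (α := G),
      ← Finset.card_univ, ← Finset.card_univ (α := G), ← Finset.card_product]
    apply Finset.card_le_mul_card_image_of_maps_to
      (f := fun x : scal ρ × {g : G // (mat ρ g).charpoly ∈ PP} =>
        ((x.1 : G) * (x.2 : G), (mat ρ x.2).charpoly))
    · intro x _
      simp [x.2.2]
    · rintro ⟨y, P⟩ _
      by_contra hlt
      rw [not_le] at hlt
      obtain ⟨a, b, c, ha, hb, hc, hab, hac, hbc⟩ := Finset.two_lt_card_iff.mp hlt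
      simp only [Finset.mem_filter, Finset.mem_univ, true_and, Prod.mk.injEq] at ha hb hc
      obtain ⟨ca, hca⟩ := (mem_scal_iff ρ _).mp a.1.2
      obtain ⟨cb, hcb⟩ := (mem_scal_iff ρ _).mp b.1.2
      obtain ⟨cc, hcc⟩ := (mem_scal_iff ρ _).mp c.1.2
      have hne : ∀ (u v : scal ρ × {g : G // (mat ρ g).charpoly ∈ PP}) (cu cv : κ),
          mat ρ u.1 = cu • (1 : Matrix (Fin 2) (Fin 2) κ) →
          mat ρ v.1 = cv • (1 : Matrix (Fin 2) (Fin 2) κ) →
          (u.1 : G) * (u.2 : G) = y → (v.1 : G) * (v.2 : G) = y → u ≠ v → cu ≠ cv := by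
        intro u v cu cv hu hv huy hvy huv hcuv
        apply huv
        have h1 : (u.1 : G) = v.1 := mat_injective hρ (by rw [hu, hv, hcuv])
        have h2 : (u.2 : G) = v.2 := by
          rw [← hvy, h1] at huy
          exact mul_left_cancel huy
        exact Prod.ext (Subtype.ext h1) (Subtype.ext h2)
      have hab' := hne a b ca cb hca hcb ha.1 hb.1 hab
      have hac' := hne a c ca cc hca hcc ha.1 hc.1 hac
      have hbc' := hne b c cb cc hcb hcc hb.1 hc.1 hbc
      have sab := Scal.sq_eq_sq ρ hca hcb (ha.1.trans hb.1.symm) (ha.2.trans hb.2.symm)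
      have sac := Scal.sq_eq_sq ρ hca hcc (ha.1.trans hc.1.symm) (ha.2.trans hc.2.symm)
      have e1 : ca = -cb := (sq_eq_sq_iff_eq_or_eq_neg.mp sab).resolve_left hab'
      have e2 : ca = -cc := (sq_eq_sq_iff_eq_or_eq_neg.mp sac).resolve_left hac'
      exact hbc' (neg_injective (e1.symm.trans e2))
  have hG : 0 < Nat.card G := Nat.card_pos
  have hHpos : 0 < Nat.card {g : G // (mat ρ g).charpoly ∈ PP} := by omega
  have h3 : 3 * Nat.card (scal ρ) * Nat.card {g : G // (mat ρ g).charpoly ∈ PP} ≤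
      8 * M * Nat.card {g : G // (mat ρ g).charpoly ∈ PP} := by
    calc 3 * Nat.card (scal ρ) * Nat.card {g : G // (mat ρ g).charpoly ∈ PP}
        = 3 * (Nat.card (scal ρ) * Nat.card {g : G // (mat ρ g).charpoly ∈ PP}) := by ring
      _ ≤ 3 * (2 * (Nat.card G * PP.card)) := by gcongr
      _ = 2 * PP.card * (3 * Nat.card G) := by ring
      _ ≤ 2 * M * (4 * Nat.card {g : G // (mat ρ g).charpoly ∈ PP}) := by gcongr
      _ = 8 * M * Nat.card {g : G // (mat ρ g).charpoly ∈ PP} := by ring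
  exact Nat.le_of_mul_le_mul_right h3 hHpos

end Fermat.Agent.S48.BI
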