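/-
S48, node F (bounded image), sub-task K3: a bound for the stabiliser of a point by double fibre
counting for the conjugation map.  Owner: helper293.
-/
import Mathlib

set_option autoImplicit false

namespace Fermat.Agent.S48.BI

namespace StabBound

open Finset

variable {G X : Type*} [Group G] [MulAction G X]

/-- the elements moving `x` to a given point: at most as many as the stabiliser. -/
lemma card_fibre_orbit_le [Fintype G] [DecidableEq G] (x z : X) (B : Finset G) :
    open Classical in
    #{g ∈ B | g • x = z} ≤ #{a ∈ (univ : Finset G) | a • x = x} := by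
  classical
  rcases Finset.eq_empty_or_nonempty {g ∈ B | g • x = z} with h | ⟨g₀, hg₀⟩
  · rw [h]; simp
  · rw [Finset.mem_filter] at hg₀
    refine Finset.card_le_card_of_injOn (fun g => g₀⁻¹ * g) ?_ ?_
    · intro g hg
      have hg' := (Finset.mem_filter.mp (Finset.mem_coe.mp hg)).2
      simp only [Finset.coe_filter, Finset.mem_univ, true_and, Set.mem_ofPred_eq]
      rw [mul_smul, hg', ← hg₀.2, inv_smul_smul]
    · intro g _ g' _ h
      exact mul_left_cancel h

/-- the elements `g` with `g • x` fixed by `y`. -/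
lemma card_trans_le [Fintype G] [DecidableEq G] (x : X) (y : G)
    (hy : (MulAction.fixedBy X y).ncard = 2) :
    open Classical in
    #{g ∈ (univ : Finset G) | y • (g • x) = g • x} ≤
      #{a ∈ (univ : Finset G) | a • x = x} * 2 := by
  classical
  have hfin : (MulAction.fixedBy X y).Finite :=
    Set.finite_of_ncard_ne_zero (by rw [hy]; norm_num)
  have hcard : #hfin.toFinset = 2 := by
    rw [← hy, Set.ncard_eq_toFinset_card _ hfin]
  rw [← hcard]
  refine Finset.card_le_mul_card_image_of_maps_to (f := fun g : G => g • x) ?_ _ ?_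
  · intro g hg
    rw [Set.Finite.mem_toFinset, MulAction.mem_fixedBy]
    exact (Finset.mem_filter.mp hg).2
  · intro z _
    exact card_fibre_orbit_le x z _

end StabBound

open Finset StabBound in
/-- K3 -/
theorem card_stabilizer_le_of_fixedBy {G X : Type*} [Group G] [Finite G] [MulAction G X]
    (Z : Subgroup G) [Z.Normal] (H : Set G) (hconj : ∀ g h : G, h ∈ H → g * h * g⁻¹ ∈ H)
    (hH : 3 * Nat.card G ≤ 4 * H.ncard)
    (h2 : ∀ g : G, g ∉ Z → (MulAction.fixedBy X g).ncard = 2)
    (x : X) (m : ℕ) (hm : (H ∩ (MulAction.stabilizer G x : Set G)).ncard ≤ m) :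
    Nat.card (MulAction.stabilizer G x) ≤ 2 * Nat.card Z + 2 * m := by
  classical
  have : Fintype G := Fintype.ofFinite G
  set A : Finset G := {a ∈ (univ : Finset G) | a • x = x} with hA
  set A' : Finset G := {a ∈ (univ : Finset G) | a • x = x ∧ a ∉ Z ∧ a ∉ H} with hA'
  set Hf : Finset G := {a ∈ (univ : Finset G) | a ∈ H} with hHf
  set Hc : Finset G := {a ∈ (univ : Finset G) | a ∉ H} with hHc
  set Zf : Finset G := {a ∈ (univ : Finset G) | a ∈ Z} with hZf
  set HA : Finset G := {a ∈ (univ : Finset G) | a ∈ H ∧ a • x = x} with hHA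
  have cA : Nat.card (MulAction.stabilizer G x) = #A := by
    rw [Nat.card_eq_fintype_card, Fintype.card_subtype]
    simp [hA, MulAction.mem_stabilizer_iff]
  have cZ : Nat.card Z = #Zf := by
    rw [Nat.card_eq_fintype_card, Fintype.card_subtype]
  have cH : H.ncard = #Hf := by
    rw [Set.ncard_eq_toFinset_card']
    congr 1
    ext a; simp [hHf]
  have cHA : (H ∩ (MulAction.stabilizer G x : Set G)).ncard = #HA := by
    rw [Set.ncard_eq_toFinset_card']
    congr 1
    ext a; simp [hHA, MulAction.mem_stabilizer_iff]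
  have cG : Nat.card G = #(univ : Finset G) := by
    rw [Nat.card_eq_fintype_card, Finset.card_univ]
  have hsplit : #Hf + #Hc = #(univ : Finset G) :=
    Finset.card_filter_add_card_filter_not (s := (univ : Finset G)) (fun a => a ∈ H)
  -- the main count
  have hmain : #((univ : Finset G) ×ˢ A') ≤ (#A * 2) * #Hc := by
    refine Finset.card_le_mul_card_image_of_maps_to
      (f := fun ga : G × G => ga.1 * ga.2 * ga.1⁻¹) ?_ _ ?_
    · rintro ⟨g, a⟩ hga
      have ha := (Finset.mem_filter.mp (Finset.mem_product.mp hga).2).2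
      rw [hHc, Finset.mem_filter]
      refine ⟨Finset.mem_univ _, fun hcon => ha.2.2 ?_⟩
      have := hconj g⁻¹ _ hcon
      simpa [mul_assoc] using this
    · intro y _
      by_cases hyZ : y ∈ Z
      · have hempty : {ga ∈ (univ : Finset G) ×ˢ A' | ga.1 * ga.2 * ga.1⁻¹ = y} = ∅ := by
          rw [Finset.filter_eq_empty_iff]
          rintro ⟨g, a⟩ hga hy
          have ha := (Finset.mem_filter.mp (Finset.mem_product.mp hga).2).2
          apply ha.2.1
          have h1 : g⁻¹ * y * g⁻¹⁻¹ ∈ Z := Subgroup.Normal.conj_mem inferInstance y hyZ g⁻¹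
          have h3 : g⁻¹ * y * g⁻¹⁻¹ = a := by
            rw [← hy]; simp [mul_assoc]
          rwa [h3] at h1
        rw [hempty]; simp
      · refine le_trans ?_ (card_trans_le x y (h2 y hyZ))
        refine Finset.card_le_card_of_injOn (fun ga : G × G => ga.1) ?_ ?_
        · rintro ⟨g, a⟩ hga
          have hga' := Finset.mem_filter.mp (Finset.mem_coe.mp hga)
          have ha := (Finset.mem_filter.mp (Finset.mem_product.mp hga'.1).2).2
          have hy : g * a * g⁻¹ = y := hga'.2
          simp only [Finset.coe_filter, Finset.mem_univ, true_and, Set.mem_ofPred_eq]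
          rw [← hy, mul_smul, inv_smul_smul, mul_smul, ha.1]
        · rintro ⟨g, a⟩ hga ⟨g', a'⟩ hga' (h : g = g')
          have hy : g * a * g⁻¹ = y := (Finset.mem_filter.mp (Finset.mem_coe.mp hga)).2
          have hy' : g' * a' * g'⁻¹ = y := (Finset.mem_filter.mp (Finset.mem_coe.mp hga')).2
          subst h
          have : a = a' := by
            have h4 := hy.trans hy'.symm
            exact mul_left_cancel (mul_right_cancel h4)
          rw [this]
  rw [Finset.card_product] at hmain
  -- the covering
  have hcov : #A ≤ #A' + #Zf + #HA := by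
    have hsub : A ⊆ A' ∪ Zf ∪ HA := by
      intro a ha
      have ha' := (Finset.mem_filter.mp ha).2
      simp only [Finset.mem_union, hA', hZf, hHA, Finset.mem_filter, Finset.mem_univ, true_and]
      by_cases h1 : a ∈ Z
      · exact Or.inl (Or.inr h1)
      · by_cases h3 : a ∈ H
        · exact Or.inr ⟨h3, ha'⟩
        · exact Or.inl (Or.inl ⟨ha', h1, h3⟩)
    calc #A ≤ #(A' ∪ Zf ∪ HA) := Finset.card_le_card hsub
      _ ≤ #(A' ∪ Zf) + #HA := Finset.card_union_le _ _
      _ ≤ #A' + #Zf + #HA := by
          have := Finset.card_union_le A' Zf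
          omega
  rw [cA, cZ]
  rw [cHA] at hm
  rw [cG, cH] at hH
  set n := #(univ : Finset G) with hn
  have hn0 : 0 < n := by
    rw [hn, Finset.card_pos]
    exact ⟨1, Finset.mem_univ _⟩
  have h4 : 4 * #Hc ≤ n := by omega
  have h5 : n * (2 * #A') ≤ n * #A := by
    have h6 : 4 * (n * #A') ≤ 4 * ((#A * 2) * #Hc) := Nat.mul_le_mul_left 4 hmain
    have h7 : (#A * 2) * (4 * #Hc) ≤ (#A * 2) * n := Nat.mul_le_mul_left _ h4
    nlinarith
  have h8 : 2 * #A' ≤ #A := Nat.le_of_mul_le_mul_left h5 hn0
  omega

end Fermat.Agent.S48.BI
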